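import Mathlib
import Fermat.Agent.PT.Glob.GIface

/-!
# W3-PT / PT-GLOB / GLOB-SHA (`GShaBound`): interface between the two halves

`GShaBound` (`Glob/GIface.lean`) is proved in two halves.

* Part A (cohomology + Kummer theory, relative language; helper11): every class `y` of
  `Ш²_S(L, 𝔽_p)` is, on `G_L`, the coboundary of a continuous cochain `ε` (Hasse principle),
  `ε - y(1,1)` restricts to a `G_L`-invariant character of `G_F` (`F` a level of `y`), hence to
  the Kummer character of `B` with `a = B ^ p ∈ F` and `h67s_Inv p S L a`; if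
  `h67s_Triv p S L (a / a')` for the elements attached to `y`, `y'`, then `y - y'` is a
  coboundary of level `S`.
* Part B (arithmetic; helper67): `h67s_ClassBound`, i.e. the group of invariant classes modulo
  the trivial ones injects into `Cl_S(L) / p`.
-/

set_option autoImplicit false

namespace Fermat.Agent.PT.Glob

open Fermat.Agent.Bridge

/-- `a ≠ 0` lies in a field `F ⊇ L` unramified outside `S`, and the class of `a` modulo `p`-th
powers of `F` is invariant under `G_L`. -/
def h67s_Inv (p : ℕ) (S : Finset Nat.Primes) (L : NFd) (a : Qb) : Prop :=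
  a ≠ 0 ∧ ∃ F : NFd, F.IsUnramifiedOutside S ∧ L ≤ F ∧ a ∈ F ∧
    ∀ g ∈ GU L, ∃ γ : Qb, γ ∈ F ∧ g a = γ ^ p * a

/-- Up to an element of `Lˣ`, the valuations of `a` outside `S` are divisible by `p`
(valuations normalised on `L`). -/
def h67s_Triv (p : ℕ) (S : Finset Nat.Primes) (L : NFd) (a : Qb) : Prop :=
  ∃ b : Qb, b ∈ L ∧ b ≠ 0 ∧ ∀ q : Nat.Primes, q ∉ S → ∀ A : ValuationSubring Qb,
    A.LiesOverPrime (q : ℕ) → DvdValAt p L A (a / b)

/-- **Part B of `GShaBound`**: a family of invariant classes which is injective modulo the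
trivial classes has at most `#(Cl_S(L)/p)` members. -/
def h67s_ClassBound : Prop :=
  ∀ (p : ℕ) [Fact p.Prime] (S : Finset Nat.Primes) (L : NFd) [NumberField L],
    L.IsUnramifiedOutside S →
    ∀ (X : Type) [Fintype X] (a : X → Qb), (∀ x, h67s_Inv p S L (a x)) →
      (∀ x x', h67s_Triv p S L (a x / a x') → x = x') →
      Fintype.card X ≤ gClS p S L

end Fermat.Agent.PT.Glob
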