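import Mathlib
import Fermat.Agent.PT.Glob.Sha.Iface67
import Fermat.Agent.PT.Bridge.NFDict
import Fermat.Agent.PT.Bridge.Levels
import Fermat.Agent.Bridge.MinkowskiFinal

/-!
# W3-PT / GLOB-SHA, Part B, module 1: the order at a valuation subring of `ℚ̄` over an
unramified prime

For a valuation subring `A` of `ℚ̄` over `q` and `a ∈ ℚ̄ˣ`, `h67s_IsOrd q A a k` says that
`a / q ^ k` is a unit of `A`.  Such a `k` is unique; it exists when `a` lies in a finite
extension of `ℚ` in which `q` is unramified (`h67s_exists_ord`).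
-/

set_option autoImplicit false
set_option linter.unusedSectionVars false

open NumberField IsDedekindDomain
open Fermat.Agent.Bridge Fermat.Agent.PT.Bridge

namespace Fermat.Agent.PT.Glob

/-- `a / q ^ k` is a unit of `A`. -/
def h67s_IsOrd (q : ℕ) (A : ValuationSubring Qb) (a : Qb) (k : ℤ) : Prop :=
  A.valuation (a / (q : Qb) ^ k) = 1

section Alg

variable {q : ℕ} {A : ValuationSubring Qb}

theorem h67s_isOrd_iff (hq : q ≠ 0) {a : Qb} {k : ℤ} :
    h67s_IsOrd q A a k ↔ A.valuation a = A.valuation (q : Qb) ^ k := by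
  unfold h67s_IsOrd
  have hq' : (q : Qb) ≠ 0 := by exact_mod_cast hq
  have h0 : A.valuation ((q : Qb) ^ k) ≠ 0 := by
    rw [Ne, Valuation.zero_iff]; exact zpow_ne_zero _ hq'
  rw [map_div₀, div_eq_one_iff_eq h0, map_zpow₀]

theorem h67s_val_ne_zero (hq : q ≠ 0) : A.valuation (q : Qb) ≠ 0 := by
  rw [Ne, Valuation.zero_iff]; exact_mod_cast hq

theorem h67s_IsOrd.ne_zero {a : Qb} {k : ℤ} (h : h67s_IsOrd q A a k) : a ≠ 0 := by
  rintro rfl
  unfold h67s_IsOrd at h
  simp at h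

theorem h67s_IsOrd.mul {a b : Qb} {k l : ℤ} (hq : q ≠ 0) (ha : h67s_IsOrd q A a k)
    (hb : h67s_IsOrd q A b l) : h67s_IsOrd q A (a * b) (k + l) := by
  rw [h67s_isOrd_iff hq] at *
  rw [map_mul, ha, hb, zpow_add₀ (h67s_val_ne_zero hq)]

theorem h67s_IsOrd.inv {a : Qb} {k : ℤ} (hq : q ≠ 0) (ha : h67s_IsOrd q A a k) :
    h67s_IsOrd q A a⁻¹ (-k) := by
  rw [h67s_isOrd_iff hq] at *
  rw [map_inv₀, ha, zpow_neg]

theorem h67s_IsOrd.div {a b : Qb} {k l : ℤ} (hq : q ≠ 0) (ha : h67s_IsOrd q A a k)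
    (hb : h67s_IsOrd q A b l) : h67s_IsOrd q A (a / b) (k - l) := by
  rw [div_eq_mul_inv, sub_eq_add_neg]
  exact ha.mul hq (hb.inv hq)

theorem h67s_IsOrd.pow {a : Qb} {k : ℤ} (hq : q ≠ 0) (ha : h67s_IsOrd q A a k) (n : ℕ) :
    h67s_IsOrd q A (a ^ n) (n * k) := by
  rw [h67s_isOrd_iff hq] at *
  rw [map_pow, ha, ← zpow_natCast, ← zpow_mul, mul_comm]

theorem h67s_isOrd_self_zpow (hq : q ≠ 0) (k : ℤ) : h67s_IsOrd q A ((q : Qb) ^ k) k := by
  rw [h67s_isOrd_iff hq, map_zpow₀]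

/-- uniqueness of the order. -/
theorem h67s_IsOrd.unique (hq : q ≠ 0) (hA : A.LiesOverPrime q) {a : Qb} {k l : ℤ}
    (hk : h67s_IsOrd q A a k) (hl : h67s_IsOrd q A a l) : k = l := by
  rw [h67s_isOrd_iff hq] at hk hl
  have hlt : A.valuation (q : Qb) < 1 := by
    have : (q : Qb) ∈ A.nonunits := hA
    exact (ValuationSubring.mem_nonunits_iff A).1 this
  have h0 : 0 < A.valuation (q : Qb) := zero_lt_iff.2 (h67s_val_ne_zero hq)
  have heq : A.valuation (q : Qb) ^ k = A.valuation (q : Qb) ^ l := hk.symm.trans hl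
  exact zpow_right_injective₀ h0 hlt.ne heq

end Alg

/-! ## Existence at unramified primes -/

/-- a nonzero element of `ℤᵐ⁰` is an `exp`. -/
theorem h67s_exists_exp {x : WithZero (Multiplicative ℤ)} (hx : x ≠ 0) :
    ∃ n : ℤ, x = WithZero.exp n := by
  obtain ⟨y, rfl⟩ := WithZero.ne_zero_iff_exists.1 hx
  exact ⟨Multiplicative.toAdd y, rfl⟩

/-- at a prime of a number field `E ⊆ ℚ̄` which is unramified over `ℤ`, the prime number below
is a uniformizer. -/
theorem h67s_valuation_natCast_of_unramified (E : IntermediateField ℚ Qb) [NumberField E]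
    (v : HeightOneSpectrum (𝓞 E)) {q : ℕ} (hq : q.Prime) (hqv : ((q : ℕ) : 𝓞 E) ∈ v.asIdeal)
    (hun : Algebra.IsUnramifiedAt ℤ v.asIdeal) :
    v.valuation E ((q : ℕ) : E) = WithZero.exp (-1 : ℤ) := by
  have hq0 : ((q : ℕ) : 𝓞 E) ≠ 0 := by exact_mod_cast hq.ne_zero
  -- the prime below
  have hunder : v.asIdeal.under ℤ = Ideal.span {(q : ℤ)} := by
    have hmax : (Ideal.span {(q : ℤ)}).IsMaximal :=
      PrincipalIdealRing.isMaximal_of_irreducible
        (Nat.prime_iff_prime_int.1 hq).irreducible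
    refine (hmax.eq_of_le ?_ ?_).symm
    · exact (Ideal.IsPrime.under ℤ v.asIdeal).ne_top
    · rw [Ideal.span_singleton_le_iff_mem, Ideal.mem_comap]
      simpa using hqv
  have hlo : v.asIdeal.LiesOver (Ideal.span {(q : ℤ)}) := ⟨hunder.symm⟩
  have hpne : Ideal.span {(q : ℤ)} ≠ ⊥ := by
    rw [Ne, Ideal.span_singleton_eq_bot]
    exact_mod_cast hq.ne_zero
  have he : (Ideal.span {(q : ℤ)}).ramificationIdx' v.asIdeal = 1 := by
    rw [Ideal.ramificationIdx'_eq_ramificationIdx _ _ hpne]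
    exact Ideal.ramificationIdx_eq_one_iff.2 hun
  have hmap : Ideal.map (algebraMap ℤ (𝓞 E)) (Ideal.span {(q : ℤ)}) =
      Ideal.span {((q : ℕ) : 𝓞 E)} := by
    rw [Ideal.map_span, Set.image_singleton]
    simp
  have hle1 : Ideal.map (algebraMap ℤ (𝓞 E)) (Ideal.span {(q : ℤ)}) ≤ v.asIdeal := by
    rw [hmap, Ideal.span_singleton_le_iff_mem]; exact hqv
  have hnot2 : ((q : ℕ) : 𝓞 E) ∉ v.asIdeal ^ 2 := by
    intro h2
    have := (Ideal.ramificationIdx'_ne_one_iff hle1).2 (by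
      rw [hmap, Ideal.span_singleton_le_iff_mem]; exact h2)
    exact this he
  have h1 : v.intValuation ((q : ℕ) : 𝓞 E) ≤ WithZero.exp (-((1 : ℕ) : ℤ)) :=
    (v.intValuation_le_pow_iff_mem _ 1).2 (by rwa [pow_one])
  have h2 : ¬ v.intValuation ((q : ℕ) : 𝓞 E) ≤ WithZero.exp (-((2 : ℕ) : ℤ)) := fun h =>
    hnot2 ((v.intValuation_le_pow_iff_mem _ 2).1 h)
  have hne : v.intValuation ((q : ℕ) : 𝓞 E) ≠ 0 := v.intValuation_ne_zero _ hq0
  obtain ⟨n, hn⟩ := h67s_exists_exp hne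
  rw [hn, WithZero.exp_le_exp] at h1
  rw [hn, WithZero.exp_le_exp] at h2
  have hn1 : n = -1 := by
    push_cast at h1 h2
    omega
  have hcast : (((q : ℕ) : E)) = algebraMap (𝓞 E) E ((q : ℕ) : 𝓞 E) := by simp
  rw [hcast, HeightOneSpectrum.valuation_of_algebraMap, hn, hn1]

/-- **Existence of the order.** If `a ≠ 0` lies in a field unramified outside `S` and `A` lies
over a prime `q ∉ S`, then `a / q ^ k` is a unit of `A` for some `k`. -/
theorem h67s_exists_ord {S : Finset Nat.Primes} {F : IntermediateField ℚ Qb}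
    (hF : F.IsUnramifiedOutside S) (q : Nat.Primes) (hqS : q ∉ S) (A : ValuationSubring Qb)
    (hA : A.LiesOverPrime (q : ℕ)) {a : Qb} (haF : a ∈ F) (ha : a ≠ 0) :
    ∃ k : ℤ, h67s_IsOrd (q : ℕ) A a k := by
  obtain ⟨E, hFE, hE, hgal, -, -⟩ := pt79_exists_galois_level hF
  have hfd : FiniteDimensional ℚ E := hE.1
  have hnf : NumberField E := h23b_numberField E
  have hun := (unramifiedIff E (q : ℕ) q.2).1 (fun A' hA' => hE.2 q hqS A' hA')
  set v : HeightOneSpectrum (𝓞 E) := h23b_placeUnder E A q.2 hA with hv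
  have hvA : v.asIdeal = primeUnder A E := rfl
  have hqv : (((q : ℕ) : ℕ) : 𝓞 E) ∈ v.asIdeal := by
    rw [hvA]; exact (natCast_mem_primeUnder_iff A E (q : ℕ)).2 hA
  have hunv : Algebra.IsUnramifiedAt ℤ v.asIdeal := hun v.asIdeal hqv
  have hvq := h67s_valuation_natCast_of_unramified E v q.2 hqv hunv
  -- the element `a` in `E`
  set a' : E := ⟨a, hFE haF⟩ with ha'
  have ha'0 : a' ≠ 0 := by
    intro h
    apply ha
    have := congrArg (fun x : E => (x : Qb)) h
    simpa [ha'] using this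
  have hva0 : v.valuation E a' ≠ 0 := (Valuation.ne_zero_iff _).2 ha'0
  obtain ⟨n, hn⟩ := h67s_exists_exp hva0
  refine ⟨-n, ?_⟩
  have hq0 : (((q : ℕ) : ℕ) : E) ≠ 0 := by exact_mod_cast q.2.ne_zero
  have hval : v.valuation E (a' / (((q : ℕ) : ℕ) : E) ^ (-n)) = 1 := by
    rw [map_div₀, map_zpow₀, hvq, hn, ← WithZero.exp_zsmul, ← WithZero.exp_sub]
    simp
  have hunit := (h23b_isUnit_iff_valuation_eq_one v hvA _).2 hval
  have hcoe : ((a' / (((q : ℕ) : ℕ) : E) ^ (-n) : E) : Qb) = a / ((q : ℕ) : Qb) ^ (-n) := by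
    rw [ha']
    push_cast
    rfl
  rw [hcoe] at hunit
  exact val_eq_one_of_not_mem_nonunits A hunit.1 hunit.2

end Fermat.Agent.PT.Glob
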