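import Mathlib
import Fermat.Agent.PT.Glob.Sha.Ord67
import Fermat.Agent.PT.Glob.H93KSel
import Fermat.Agent.PT.Glob.H23PlacesCard
import Fermat.Agent.PT.Glob.Adm

/-!
# W3-PT / GLOB-SHA, Part B, module 2: invariant classes inject into `Cl_S(L) / p`

`h67s_classBound : h67s_ClassBound`.
-/

set_option autoImplicit false
set_option linter.unusedSectionVars false

open NumberField IsDedekindDomain FractionalIdeal
open Fermat.Agent.Bridge Fermat.Agent.PT.Bridge
open scoped nonZeroDivisors Pointwise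

namespace Fermat.Agent.PT.Glob

/-! ## Units of a valuation subring -/

theorem h67s_val_eq_one_iff (A : ValuationSubring Qb) (x : Qb) :
    A.valuation x = 1 ↔ x ∈ A ∧ x ∉ A.nonunits := by
  constructor
  · intro h
    refine ⟨(A.valuation_le_one_iff x).1 h.le, fun hn => ?_⟩
    have := (ValuationSubring.mem_nonunits_iff A).1 hn
    rw [h] at this
    exact lt_irrefl _ this
  · rintro ⟨h1, h2⟩
    exact val_eq_one_of_not_mem_nonunits A h1 h2

/-- the order at a translate. -/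
theorem h67s_isOrd_smul (q : ℕ) (A : ValuationSubring Qb) (σ : GQ) (a : Qb) (k : ℤ) :
    h67s_IsOrd q (σ • A) a k ↔ h67s_IsOrd q A ((σ⁻¹ : GQ) a) k := by
  unfold h67s_IsOrd
  rw [h67s_val_eq_one_iff, h67s_val_eq_one_iff, mem_smul_iff, mem_nonunits_smul_iff]
  have : (σ⁻¹ : GQ) (a / (q : Qb) ^ k) = (σ⁻¹ : GQ) a / (q : Qb) ^ k := by
    rw [map_div₀, map_zpow₀, map_natCast]
  rw [this]

/-- a nonzero algebraic number is a unit at all valuation subrings over almost all primes. -/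
theorem h67s_exists_unit_outside (a : Qb) (ha : a ≠ 0) :
    ∃ n : ℕ, n ≠ 0 ∧ ∀ q : ℕ, q.Prime → ¬ q ∣ n → ∀ A : ValuationSubring Qb,
      A.LiesOverPrime q → A.valuation a = 1 := by
  have halg : ∀ x : Qb, IsAlgebraic ℤ x := qb_isAlgebraic_int
  obtain ⟨n₁, hn₁, h₁⟩ := (halg a).exists_integral_multiple
  obtain ⟨n₂, hn₂, h₂⟩ := (halg a⁻¹).exists_integral_multiple
  refine ⟨(n₁ * n₂).natAbs, Int.natAbs_ne_zero.2 (mul_ne_zero hn₁ hn₂), fun q hq hqn' A hA => ?_⟩
  have hqn : ¬ (q : ℤ) ∣ n₁ * n₂ := fun h => hqn' (Int.natCast_dvd.1 h)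
  have hunit : ∀ n : ℤ, ¬ (q : ℤ) ∣ n → A.valuation (n : Qb) = 1 := by
    intro n hn
    rw [h67s_val_eq_one_iff]
    have hint : IsIntegral ℤ (n : Qb) := by
      have := isIntegral_algebraMap (R := ℤ) (A := Qb) (x := n)
      simpa using this
    refine ⟨mem_of_isIntegral A hint, fun hmem => hn ?_⟩
    have h1 : n ∈ M2_intIdeal A := (M2_mem_intIdeal A n).2 hmem
    rw [intIdeal_eq_span hq hA, Ideal.mem_span_singleton] at h1
    exact h1
  have hq1 : ¬ (q : ℤ) ∣ n₁ := fun h => hqn (dvd_mul_of_dvd_left h _)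
  have hq2 : ¬ (q : ℤ) ∣ n₂ := fun h => hqn (dvd_mul_of_dvd_right h _)
  have ha1 : A.valuation a ≤ 1 := by
    have hmem : n₁ • a ∈ A := mem_of_isIntegral A h₁
    have hle := (A.valuation_le_one_iff _).2 hmem
    rw [zsmul_eq_mul, map_mul, hunit n₁ hq1, one_mul] at hle
    exact hle
  have ha2 : A.valuation a⁻¹ ≤ 1 := by
    have hmem : n₂ • a⁻¹ ∈ A := mem_of_isIntegral A h₂
    have hle := (A.valuation_le_one_iff _).2 hmem
    rw [zsmul_eq_mul, map_mul, hunit n₂ hq2, one_mul] at hle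
    exact hle
  rw [map_inv₀] at ha2
  have h0 : A.valuation a ≠ 0 := by
    rw [Ne, Valuation.zero_iff]; exact ha
  have : 1 ≤ A.valuation a := by
    rwa [inv_le_one₀ (zero_lt_iff.2 h0)] at ha2
  exact le_antisymm ha1 this

/-! ## Invariance modulo `p` of the order -/

/-- the orders of an invariant class at two conjugate valuation subrings agree modulo `p`. -/
theorem h67s_ord_congr {p : ℕ} (hp : p ≠ 0) {S : Finset Nat.Primes} {L : NFd} {a : Qb}
    (hInv : h67s_Inv p S L a) (q : Nat.Primes) (hqS : q ∉ S) (A : ValuationSubring Qb)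
    (hA : A.LiesOverPrime (q : ℕ)) (σ : GQ) (hσ : σ ∈ GU L) {k k' : ℤ}
    (hk : h67s_IsOrd (q : ℕ) A a k) (hk' : h67s_IsOrd (q : ℕ) (σ • A) a k') :
    (p : ℤ) ∣ k' - k := by
  obtain ⟨ha, F, hF, -, -, hinv⟩ := hInv
  obtain ⟨γ, hγF, hγ⟩ := hinv σ⁻¹ (inv_mem hσ)
  have hγ0 : γ ≠ 0 := by
    rintro rfl
    have h0 : (σ⁻¹ : GQ) a = 0 := by
      rw [hγ, zero_pow hp, zero_mul]
    exact ha ((map_eq_zero _).1 h0)
  have hq0 : ((q : ℕ)) ≠ 0 := q.2.ne_zero
  obtain ⟨m, hm⟩ := h67s_exists_ord hF q hqS A hA hγF hγ0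
  have h1 : h67s_IsOrd (q : ℕ) A ((σ⁻¹ : GQ) a) k' := (h67s_isOrd_smul _ _ _ _ _).1 hk'
  rw [hγ] at h1
  have h2 : h67s_IsOrd (q : ℕ) A (γ ^ p * a) ((p : ℤ) * m + k) := (hm.pow hq0 p).mul hq0 hk
  have h3 := h1.unique hq0 hA h2
  exact ⟨m, by rw [h3]; ring⟩

/-! ## The base field -/

/-- in a field unramified outside `S` the prime number `q ∉ S` is a uniformizer at every prime
above `q`. -/
theorem h67s_valuation_natCast_L {S : Finset Nat.Primes} (L : NFd) [NumberField L]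
    (hL : L.IsUnramifiedOutside S) (q : Nat.Primes) (hqS : q ∉ S) (A : ValuationSubring Qb)
    (hA : A.LiesOverPrime (q : ℕ)) (v : HeightOneSpectrum (𝓞 L))
    (hv : v.asIdeal = primeUnder A L) :
    v.valuation L (((q : ℕ) : ℕ) : L) = WithZero.exp (-1 : ℤ) := by
  have hq0 : ((q : ℕ)) ≠ 0 := q.2.ne_zero
  have hqL0 : (((q : ℕ) : ℕ) : L) ≠ 0 := by exact_mod_cast hq0
  obtain ⟨π, hπ⟩ := v.valuation_exists_uniformizer L
  have hπ0 : π ≠ 0 := by
    rintro rfl
    rw [map_zero] at hπ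
    exact WithZero.exp_ne_zero.symm hπ
  have hπ0' : (π : Qb) ≠ 0 := by
    intro h
    apply hπ0
    exact_mod_cast h
  obtain ⟨k, hk⟩ := h67s_exists_ord hL q hqS A hA π.2 hπ0'
  have hcoe : ((π / (((q : ℕ) : ℕ) : L) ^ k : L) : Qb) = (π : Qb) / ((q : ℕ) : Qb) ^ k := by
    push_cast
    rfl
  have hunit : v.valuation L (π / (((q : ℕ) : ℕ) : L) ^ k) = 1 := by
    rw [← h23b_isUnit_iff_valuation_eq_one v hv, hcoe, ← h67s_val_eq_one_iff]
    exact hk
  have hvq0 : v.valuation L (((q : ℕ) : ℕ) : L) ≠ 0 := (Valuation.ne_zero_iff _).2 hqL0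
  obtain ⟨n, hn⟩ := h67s_exists_exp hvq0
  have hlt : v.valuation L (((q : ℕ) : ℕ) : L) < 1 := by
    rw [← h23b_mem_nonunits_iff_valuation_lt_one v hv]
    have : (((((q : ℕ) : ℕ) : L)) : Qb) = ((q : ℕ) : Qb) := by simp
    rw [this]
    exact hA
  rw [hn, ← WithZero.exp_zero, WithZero.exp_lt_exp] at hlt
  rw [map_div₀, map_zpow₀, hπ, hn, ← WithZero.exp_zsmul, ← WithZero.exp_sub,
    ← WithZero.exp_zero, WithZero.exp_inj] at hunit
  have hkn : k * n = -1 := by
    rw [smul_eq_mul] at hunit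
    linarith
  have hn1 : n = -1 := by
    rcases Int.isUnit_iff.1 (IsUnit.of_mul_eq_one (a := -n) k (by linarith)) with h | h
    · omega
    · omega
  rw [hn, hn1]

/-- the order of an element of `L` is given by its valuation. -/
theorem h67s_isOrd_of_valuation {S : Finset Nat.Primes} (L : NFd) [NumberField L]
    (hL : L.IsUnramifiedOutside S) (q : Nat.Primes) (hqS : q ∉ S) (A : ValuationSubring Qb)
    (hA : A.LiesOverPrime (q : ℕ)) (v : HeightOneSpectrum (𝓞 L))
    (hv : v.asIdeal = primeUnder A L) (b : L) (c : ℤ)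
    (hb : v.valuation L b = WithZero.exp (-c)) : h67s_IsOrd (q : ℕ) A (b : Qb) c := by
  have hcoe : ((b / (((q : ℕ) : ℕ) : L) ^ c : L) : Qb) = (b : Qb) / ((q : ℕ) : Qb) ^ c := by
    push_cast
    rfl
  have hunit : v.valuation L (b / (((q : ℕ) : ℕ) : L) ^ c) = 1 := by
    rw [map_div₀, map_zpow₀, h67s_valuation_natCast_L L hL q hqS A hA v hv, hb,
      ← WithZero.exp_zsmul, ← WithZero.exp_sub, ← WithZero.exp_zero]
    congr 1
    rw [smul_eq_mul]
    ring
  unfold h67s_IsOrd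
  rw [h67s_val_eq_one_iff, ← hcoe, h23b_isUnit_iff_valuation_eq_one v hv]
  exact hunit

/-! ## The bound -/

/-- **Part B of `GShaBound`.** -/
theorem h67s_classBound : h67s_ClassBound := by
  classical
  intro p hp S L _ hL X _ a hInv hinj
  have hp0 : p ≠ 0 := hp.out.ne_zero
  set S' : Set (HeightOneSpectrum (𝓞 L)) := gPrimesAbove S L with hS'
  -- a chosen valuation subring above each prime of `L`
  choose qv Av hqv hAv hvA using h23b_exists_valuationSubring_of_place L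
  have hqmem : ∀ v : HeightOneSpectrum (𝓞 L), ((qv v : ℕ) : 𝓞 L) ∈ v.asIdeal := by
    intro v
    rw [hvA v]
    exact (natCast_mem_primeUnder_iff (Av v) L (qv v)).2 (hAv v)
  have hq_notin : ∀ v, v ∉ S' → (⟨qv v, hqv v⟩ : Nat.Primes) ∉ S := by
    intro v hv hq
    apply hv
    refine ⟨⟨qv v, hqv v⟩, hq, ?_⟩
    have := hqmem v
    simpa using this
  -- the orders
  have hord : ∀ x v, v ∉ S' → ∃ k : ℤ, h67s_IsOrd (qv v) (Av v) (a x) k := by
    intro x v hv
    obtain ⟨ha, F, hF, -, haF, -⟩ := hInv x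
    exact h67s_exists_ord hF ⟨qv v, hqv v⟩ (hq_notin v hv) (Av v) (hAv v) haF ha
  let d : X → HeightOneSpectrum (𝓞 L) → ℤ := fun x v =>
    if h : v ∈ S' then 0 else Classical.choose (hord x v h)
  have hd : ∀ x v (h : v ∉ S'), h67s_IsOrd (qv v) (Av v) (a x) (d x v) := by
    intro x v h
    simp only [d, dif_neg h]
    exact Classical.choose_spec (hord x v h)
  -- finite support
  have hfin : ∀ x, (Function.support (d x)).Finite := by
    intro x
    obtain ⟨n, hn0, hn⟩ := h67s_exists_unit_outside (a x) (hInv x).1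
    refine (adm_finite_above (F := L) n hn0).subset ?_
    intro v hv
    by_contra hnv
    apply hv
    by_cases hvS : v ∈ S'
    · simp only [d, dif_pos hvS]
    · have hqn : ¬ qv v ∣ n := by
        rintro ⟨m, rfl⟩
        apply hnv
        show ((qv v * m : ℕ) : 𝓞 L) ∈ v.asIdeal
        push_cast
        exact v.asIdeal.mul_mem_right _ (hqmem v)
      have h1 := hn (qv v) (hqv v) hqn (Av v) (hAv v)
      have h0 : h67s_IsOrd (qv v) (Av v) (a x) 0 := by
        unfold h67s_IsOrd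
        simpa using h1
      exact (hd x v hvS).unique (hqv v).ne_zero (hAv v) h0
  let D : X → (HeightOneSpectrum (𝓞 L) →₀ ℤ) := fun x => Finsupp.ofSupportFinite (d x) (hfin x)
  have hD : ∀ x v, D x v = d x v := fun x v => rfl
  -- the map to `Cl_S / p`
  let R : Subgroup (ClS L S') := (powMonoidHom p : ClS L S' →* ClS L S').range
  let f : X → ClS L S' ⧸ R := fun x => QuotientGroup.mk (h93s_pi L S' (h93s_P (D x)))
  have hf : Function.Injective f := by
    intro x x' hxx'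
    apply hinj
    have h1 : (h93s_pi L S' (h93s_P (D x)))⁻¹ * h93s_pi L S' (h93s_P (D x')) ∈ R :=
      QuotientGroup.eq.1 hxx'
    obtain ⟨c, hc⟩ := h1
    obtain ⟨J, rfl⟩ := h93s_pi_surjective L S' c
    have h2 : (h93s_P (D x))⁻¹ * h93s_P (D x') * (J ^ p)⁻¹ ∈ (h93s_pi L S').ker := by
      rw [MonoidHom.mem_ker, map_mul, map_mul, map_inv, map_inv, map_pow]
      rw [powMonoidHom_apply] at hc
      rw [hc, mul_inv_cancel]
    rw [h93s_ker_pi] at h2
    obtain ⟨I₀, ⟨b, rfl⟩, t, ht, hbt⟩ := Subgroup.mem_sup.1 h2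
    have hcount : ∀ v, v ∉ S' → count L v (spanSingleton (𝓞 L)⁰ ((b : Lˣ) : L)) =
        - d x v + d x' v - (p : ℤ) * count L v (J : FractionalIdeal (𝓞 L)⁰ L) := by
      intro v hv
      have h3 := congrArg (fun I : (FractionalIdeal (𝓞 L)⁰ L)ˣ =>
        count L v (I : FractionalIdeal (𝓞 L)⁰ L)) hbt
      beta_reduce at h3
      rw [Units.val_mul, count_mul L v (Units.ne_zero _) (Units.ne_zero _), ht v hv, add_zero,
        coe_toPrincipalIdeal, Units.val_mul, count_mul L v (Units.ne_zero _) (Units.ne_zero _),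
        Units.val_mul, count_mul L v (Units.ne_zero _) (Units.ne_zero _),
        Units.val_inv_eq_inv_val, count_inv, Units.val_inv_eq_inv_val, count_inv,
        Units.val_pow_eq_pow_val, count_pow, h93s_count_P, h93s_count_P, hD, hD] at h3
      rw [h3]
      ring
    have hb0 : ((b : Lˣ) : L) ≠ 0 := b.ne_zero
    have hbQ0 : (((b : Lˣ) : L) : Qb) ≠ 0 := by
      intro h
      apply hb0
      exact_mod_cast h
    refine ⟨(((b : Lˣ) : L) : Qb)⁻¹, L.inv_mem (((b : Lˣ) : L)).2, inv_ne_zero hbQ0,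
      fun q hqS A hA => ?_⟩
    have hq0 : ((q : ℕ)) ≠ 0 := q.2.ne_zero
    -- the prime of `L` under `A`
    set v : HeightOneSpectrum (𝓞 L) := h23b_placeUnder L A q.2 hA with hvdef
    have hv : v.asIdeal = primeUnder A L := rfl
    have hqv' : (((q : ℕ) : ℕ) : 𝓞 L) ∈ v.asIdeal := by
      rw [hv]; exact (natCast_mem_primeUnder_iff A L (q : ℕ)).2 hA
    have hvS' : v ∉ S' := by
      rintro ⟨q', hq'S, hq'v⟩
      have hq'v' : (((q' : ℕ) : ℕ) : 𝓞 L) ∈ v.asIdeal := by simpa using hq'v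
      have := h23_prime_unique L v.asIdeal q.2 q'.2 hqv' hq'v'
      have hqq' : q = q' := Subtype.ext this
      exact hqS (hqq' ▸ hq'S)
    have hqeq : qv v = (q : ℕ) := h23_prime_unique L v.asIdeal (hqv v) q.2 (hqmem v) hqv'
    have hAv' : (Av v).LiesOverPrime (q : ℕ) := hqeq ▸ hAv v
    obtain ⟨σ, hσ, hσA⟩ := Fermat.Agent.Bridge.conj L (Av v) A ((hvA v).symm.trans hv)
    -- the orders at `A`
    have key : ∀ y : X, ∃ k : ℤ, h67s_IsOrd (q : ℕ) A (a y) k ∧ (p : ℤ) ∣ k - d y v := by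
      intro y
      obtain ⟨ha, F, hF, -, haF, -⟩ := hInv y
      obtain ⟨k, hk⟩ := h67s_exists_ord hF q hqS A hA haF ha
      refine ⟨k, hk, ?_⟩
      have hdy : h67s_IsOrd (q : ℕ) (Av v) (a y) (d y v) := hqeq ▸ hd y v hvS'
      exact h67s_ord_congr hp0 (hInv y) q hqS (Av v) hAv' σ hσ hdy (hσA ▸ hk)
    obtain ⟨k, hk, hkd⟩ := key x
    obtain ⟨k', hk', hkd'⟩ := key x'
    -- the order of `b`
    have hbord : h67s_IsOrd (q : ℕ) A (((b : Lˣ) : L) : Qb)
        (count L v (spanSingleton (𝓞 L)⁰ ((b : Lˣ) : L))) :=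
      h67s_isOrd_of_valuation L hL q hqS A hA v hv _ _ (h93s_valuation_eq v _ hb0)
    have htot : h67s_IsOrd (q : ℕ) A (a x / a x' / (((b : Lˣ) : L) : Qb)⁻¹)
        (k - k' - -(count L v (spanSingleton (𝓞 L)⁰ ((b : Lˣ) : L)))) :=
      (hk.div hq0 hk').div hq0 (hbord.inv hq0)
    have hdvd : (p : ℤ) ∣ k - k' - -(count L v (spanSingleton (𝓞 L)⁰ ((b : Lˣ) : L))) := by
      rw [hcount v hvS']
      obtain ⟨m, hm⟩ := hkd
      obtain ⟨m', hm'⟩ := hkd'
      refine ⟨m - m' - count L v (J : FractionalIdeal (𝓞 L)⁰ L), ?_⟩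
      have e1 : k = d x v + p * m := by linarith
      have e2 : k' = d x' v + p * m' := by linarith
      rw [e1, e2]
      ring
    obtain ⟨m, hm⟩ := hdvd
    rw [hm] at htot
    have hqQ0 : ((q : ℕ) : Qb) ≠ 0 := by exact_mod_cast hq0
    set z : Qb := a x / a x' / (((b : Lˣ) : L) : Qb)⁻¹ with hz
    have hu1 : A.valuation (z / ((q : ℕ) : Qb) ^ ((p : ℤ) * m)) = 1 := htot
    refine ⟨((q : ℕ) : Qb) ^ m, zpow_mem (natCast_mem L (q : ℕ)) m, zpow_ne_zero _ hqQ0,
      z / ((q : ℕ) : Qb) ^ ((p : ℤ) * m), ?_, ?_, ?_⟩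
    · exact (A.valuation_le_one_iff _).1 hu1.le
    · refine (A.valuation_le_one_iff _).1 ?_
      rw [map_inv₀, hu1, inv_one]
    · have hpow : (((q : ℕ) : Qb) ^ m) ^ p = ((q : ℕ) : Qb) ^ ((p : ℤ) * m) := by
        rw [← zpow_natCast, ← zpow_mul, mul_comm]
      rw [hpow]
      have : ((q : ℕ) : Qb) ^ ((p : ℤ) * m) ≠ 0 := zpow_ne_zero _ hqQ0
      field_simp
  -- counting
  have hfinQ : Finite (ClS L S' ⧸ R) := inferInstance
  calc Fintype.card X = Nat.card X := (Nat.card_eq_fintype_card).symm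
    _ ≤ Nat.card (ClS L S' ⧸ R) := Nat.card_le_card_of_injective f hf
    _ = R.index := (Subgroup.index_eq_card R).symm
    _ = gClS p S L := rfl

end Fermat.Agent.PT.Glob
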