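import Mathlib
import Fermat.Agent.PT.Glob.GIface
import Fermat.Agent.PT.Glob.Sha.Iface67
import Fermat.Agent.PT.Glob.H36GUnr0
import Fermat.Agent.PT.Glob.H39Hasse
import Fermat.Agent.PT.Glob.H96KKumBasic
import Fermat.Agent.PT.Glob.H96KKumClass
import Fermat.Agent.PT.Glob.H96KKumRam
import Fermat.Agent.PT.Bridge.Levels

/-!
# W3-PT / PT-GLOB / GLOB-SHA, Part A (helper11): cohomology + Kummer theory

`GShaBound` (`Glob/GIface.lean`) is proved in two halves (interface `Glob/Sha/Iface67.lean`).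
This file is Part A:

* `h11s_Z` : the classes of `Ш²_S(L, 𝔽_p)` (cocycles of level `S`, locally trivial at `S`);
  closed under linear combinations (`h11s_Z_sum`).
* `h11s_cob` : by `GUnr0` and the Hasse principle `GHasse`, a class is a continuous coboundary
  on `G_L`.
* `h11s_A1` : the Kummer element attached to a class.
* `h11s_A2` : if the quotient of the Kummer elements of two classes is trivial in the sense of
  `h67s_Triv`, the difference of the classes is a coboundary of level `S`.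
-/

set_option autoImplicit false
set_option linter.style.haveILetI false

open NumberField IsDedekindDomain
open scoped Classical Pointwise

noncomputable section

namespace Fermat.Agent.PT.Glob

open Fermat.Agent.Bridge

/-- The prime number underlying `q : Nat.Primes` is prime. -/
local instance h11s_factPrime (q : Nat.Primes) : Fact ((q : ℕ).Prime) := ⟨q.2⟩

/-! ## The classes of `Ш²_S` form a subspace -/

/-- The cocycles representing classes of `Ш²_S(L, 𝔽_p)`. -/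
def h11s_Z (p : ℕ) (S : Finset Nat.Primes) (L : NFd) (y : GQ × GQ → ZMod p) : Prop :=
  GACoc2 L y ∧ GContS2 S L y ∧ GLocTrivS S L y

variable {p : ℕ} {S : Finset Nat.Primes} {L : NFd}

theorem h11s_locACohom_zero {q : ℕ} [Fact q.Prime] (K : Loc.LF q) [FiniteDimensional ℚ_[q] K] :
    Loc.ACohom (p := p) K 0 0 := by
  refine ⟨0, ⟨K, inferInstance, le_rfl, fun g _ s _ => rfl⟩, fun g _ h _ => ?_⟩
  simp [Loc.acob]

theorem h11s_locACohom_add {q : ℕ} [Fact q.Prime] (K : Loc.LF q)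
    {c c' : Loc.Gq q × Loc.Gq q → ZMod p}
    (h : Loc.ACohom K c 0) (h' : Loc.ACohom K c' 0) : Loc.ACohom K (c + c') 0 := by
  obtain ⟨f, ⟨F, hF, hKF, hf⟩, hc⟩ := h
  obtain ⟨f', ⟨F', hF', hKF', hf'⟩, hc'⟩ := h'
  refine ⟨f + f', ⟨F ⊔ F', ?_, hKF.trans le_sup_left, fun g hg s hs => ?_⟩, fun g hg h hh => ?_⟩
  · haveI := hF; haveI := hF'
    exact IntermediateField.finiteDimensional_sup F F'
  · have h1 : s ∈ Loc.GK F := IntermediateField.fixingSubgroup_antitone le_sup_left hs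
    have h2 : s ∈ Loc.GK F' := IntermediateField.fixingSubgroup_antitone le_sup_right hs
    simp only [Pi.add_apply]
    rw [hf g hg s h1, hf' g hg s h2]
  · have e1 := hc g hg h hh
    have e2 := hc' g hg h hh
    simp only [Pi.add_apply, Pi.zero_apply, Loc.acob, zero_add] at e1 e2 ⊢
    rw [e1, e2]
    ring

theorem h11s_locACohom_smul {q : ℕ} [Fact q.Prime] (K : Loc.LF q) (a : ZMod p)
    {c : Loc.Gq q × Loc.Gq q → ZMod p}
    (h : Loc.ACohom K c 0) : Loc.ACohom K (a • c) 0 := by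
  obtain ⟨f, ⟨F, hF, hKF, hf⟩, hc⟩ := h
  refine ⟨a • f, ⟨F, hF, hKF, fun g hg s hs => ?_⟩, fun g hg h hh => ?_⟩
  · simp only [Pi.smul_apply]
    rw [hf g hg s hs]
  · have e1 := hc g hg h hh
    simp only [Pi.smul_apply, Pi.zero_apply, Loc.acob, zero_add, smul_eq_mul] at e1 ⊢
    rw [e1]
    ring

theorem h11s_Z_zero (hL : L.IsUnramifiedOutside S) : h11s_Z p S L 0 := by
  haveI := hL.1
  refine ⟨fun g _ h _ j _ => by simp, ⟨L, hL, le_rfl, fun _ _ _ _ _ _ _ _ => rfl⟩, ?_⟩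
  intro q _ g _
  haveI := h39gh_gLocField_finiteDimensional (q := q) g L
  exact h11s_locACohom_zero _

theorem h11s_Z_add {y y' : GQ × GQ → ZMod p} (h : h11s_Z p S L y) (h' : h11s_Z p S L y') :
    h11s_Z p S L (y + y') := by
  obtain ⟨h1, ⟨F, hF, hLF, hy⟩, h3⟩ := h
  obtain ⟨h1', ⟨F', hF', hLF', hy'⟩, h3'⟩ := h'
  refine ⟨fun g hg h hh j hj => ?_, ⟨F ⊔ F', hF.sup hF', hLF.trans le_sup_left,
    fun g hg g' hg' s hs s' hs' => ?_⟩, fun q _ g hq => ?_⟩
  · have e1 := h1 g hg h hh j hj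
    have e2 := h1' g hg h hh j hj
    simp only [Pi.add_apply]
    linear_combination e1 + e2
  · have a1 : s ∈ GU F := IntermediateField.fixingSubgroup_antitone le_sup_left hs
    have a2 : s ∈ GU F' := IntermediateField.fixingSubgroup_antitone le_sup_right hs
    have b1 : s' ∈ GU F := IntermediateField.fixingSubgroup_antitone le_sup_left hs'
    have b2 : s' ∈ GU F' := IntermediateField.fixingSubgroup_antitone le_sup_right hs'
    simp only [Pi.add_apply]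
    rw [hy g hg g' hg' s a1 s' b1, hy' g hg g' hg' s a2 s' b2]
  · exact h11s_locACohom_add _ (h3 q g hq) (h3' q g hq)

theorem h11s_Z_smul (a : ZMod p) {y : GQ × GQ → ZMod p} (h : h11s_Z p S L y) :
    h11s_Z p S L (a • y) := by
  obtain ⟨h1, ⟨F, hF, hLF, hy⟩, h3⟩ := h
  refine ⟨fun g hg h hh j hj => ?_, ⟨F, hF, hLF,
    fun g hg g' hg' s hs s' hs' => ?_⟩, fun q _ g hq => ?_⟩
  · have e1 := h1 g hg h hh j hj
    simp only [Pi.smul_apply, smul_eq_mul]
    linear_combination a * e1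
  · simp only [Pi.smul_apply]
    rw [hy g hg g' hg' s hs s' hs']
  · exact h11s_locACohom_smul _ a (h3 q g hq)

theorem h11s_Z_sum (hL : L.IsUnramifiedOutside S) {n : ℕ} (y : Fin n → GQ × GQ → ZMod p)
    (hy : ∀ i, h11s_Z p S L (y i)) (a : Fin n → ZMod p) :
    h11s_Z p S L (∑ i, a i • y i) := by
  refine Finset.sum_induction _ (h11s_Z p S L) (fun _ _ => h11s_Z_add) (h11s_Z_zero hL) ?_
  intro i _
  exact h11s_Z_smul (a i) (hy i)

/-! ## The Hasse principle: classes are continuous coboundaries on `G_L` -/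

theorem h11s_cob (hH : GHasse) [Fact p.Prime] (hp2 : p ≠ 2) [FiniteDimensional ℚ L] (ζ : Qb)
    (hζL : ζ ∈ L) (hζ : IsPrimitiveRoot ζ p) {y : GQ × GQ → ZMod p} (hy : h11s_Z p S L y) :
    ∃ f : GQ → ZMod p, GCont1 L f ∧ ∀ g ∈ GU L, ∀ h ∈ GU L, y (g, h) = gacob f (g, h) := by
  obtain ⟨h1, h2, h3⟩ := hy
  have hc2 : GCont2 L y := by
    obtain ⟨F, hF, hLF, hy⟩ := h2
    exact ⟨F, hF.1, hLF, hy⟩
  have hloc : GLocTriv L y := by
    intro q _ g
    by_cases hq : ∃ q' ∈ S, (q' : ℕ) = q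
    · exact h3 q g hq
    · exact h36g_gUnr0 p S L y h1 h2 q g (fun q' hq' h => hq ⟨q', hq', h⟩)
  obtain ⟨f, hf, hyf⟩ := hH p hp2 L ζ hζL hζ y h1 hc2 hloc
  refine ⟨f, hf, fun g hg h hh => ?_⟩
  rw [hyf g hg h hh]
  simp

/-! ## A1: the Kummer element of a class -/

/-- **A1.** A class `y` of `Ш²_S(L, 𝔽_p)` is the coboundary of a cochain `f` on `G_L` whose
restriction to `G_F` (`F` a Galois level of `y`) is, up to the constant `f 1`, the Kummer
character of `B`; the class of `B ^ p ∈ F` modulo `p`-th powers is `G_L`-invariant. -/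
theorem h11s_A1 (hH : GHasse) [Fact p.Prime] (hp2 : p ≠ 2) [FiniteDimensional ℚ L] (ζ : Qb)
    (hζL : ζ ∈ L) (hζ : IsPrimitiveRoot ζ p) {y : GQ × GQ → ZMod p} (hy : h11s_Z p S L y) :
    ∃ (f : GQ → ZMod p) (F : NFd) (B : Qb),
      (∀ g ∈ GU L, ∀ h ∈ GU L, y (g, h) = gacob f (g, h)) ∧
      F.IsUnramifiedOutside S ∧ L ≤ F ∧ B ≠ 0 ∧ B ^ p ∈ F ∧
      (∀ g ∈ GU L, ∀ s ∈ GU F, f (g * s) = f g + kumQ p ζ B s) ∧
      (∀ g ∈ GU L, ∃ γ : Qb, γ ∈ F ∧ g (B ^ p) = γ ^ p * B ^ p) := by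
  obtain ⟨f, ⟨F₁, hF₁, hLF₁, hf⟩, hyf⟩ := h11s_cob hH hp2 ζ hζL hζ hy
  obtain ⟨-, ⟨F₀, hF₀, hLF₀, hy0⟩, -⟩ := hy
  obtain ⟨F, hF₀F, hF, -, hFn, hGF⟩ := pt79_exists_galois_level hF₀
  have hLF : L ≤ F := hLF₀.trans hF₀F
  have hGFL : GU F ≤ GU L := IntermediateField.fixingSubgroup_antitone hLF
  have h1L : (1 : GQ) ∈ GU L := (GU L).one_mem
  have hpos : 0 < p := (Fact.out : p.Prime).pos
  haveI : NeZero p := ⟨hpos.ne'⟩
  have hb1 : ∀ g ∈ GU L, ∀ s ∈ GU F, f (g * s) = f g + f s - f 1 := by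
    intro g hg s hs
    have e1 := hyf g hg s (hGFL hs)
    have e2 : y (g, s) = y (g, 1) := by
      have := hy0 g hg 1 h1L 1 (GU F₀).one_mem s (hGF hs)
      simpa using this
    have e3 := hyf g hg 1 h1L
    simp only [gacob, mul_one] at e1 e3
    rw [e2, e3] at e1
    linear_combination e1
  have hb2 : ∀ g ∈ GU L, ∀ s ∈ GU F, f (s * g) = f s + f g - f 1 := by
    intro g hg s hs
    have e1 := hyf s (hGFL hs) g hg
    have e2 : y (s, g) = y (1, g) := by
      have := hy0 1 h1L g hg s (hGF hs) 1 (GU F₀).one_mem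
      simpa using this
    have e3 := hyf 1 h1L g hg
    simp only [gacob, one_mul] at e1 e3
    rw [e2, e3] at e1
    linear_combination e1
  have hconj : ∀ g ∈ GU L, ∀ s ∈ GU F, f (g * s * g⁻¹) = f s := by
    intro g hg s hs
    have hs' : g * s * g⁻¹ ∈ GU F := hFn.conj_mem s hs g
    have e1 := hb2 g hg (g * s * g⁻¹) hs'
    have e2 := hb1 g hg s hs
    have e3 : g * s * g⁻¹ * g = g * s := by group
    rw [e3, e2] at e1
    linear_combination -e1
  haveI := hF.1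
  haveI := hF₁
  haveI hfin : FiniteDimensional ℚ ↥(F ⊔ F₁) := IntermediateField.finiteDimensional_sup F F₁
  obtain ⟨B, hB0, hBp, -, hχ⟩ := h96k_kKumClass p F (F ⊔ F₁) ζ hfin le_sup_left (hLF hζL) hζ
    (fun g => f g - f 1)
    (fun g hg h hh => by
      have := hb1 g (hGFL hg) h hh
      linear_combination this)
    (fun g hg s hs => by
      have := hf g (hGFL hg) s (IntermediateField.fixingSubgroup_antitone le_sup_right hs)
      linear_combination this)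
  have hχ' : ∀ s ∈ GU F, kumQ p ζ B s = f s - f 1 := fun s hs => (hχ s hs).symm
  obtain ⟨hspec, -, -, -⟩ := h96k_kKumBasic p F ζ B (hLF hζL) hζ hB0 hBp
  refine ⟨f, F, B, hyf, hF, hLF, hB0, hBp, fun g hg s hs => ?_, fun g hg => ?_⟩
  · rw [hb1 g hg s hs, hχ' s hs]
    ring
  · have hgB : g B ≠ 0 := by
      intro h
      exact hB0 ((map_eq_zero_iff g g.injective).mp h)
    have hζ0 : ζ ≠ 0 := hζ.ne_zero hpos.ne'
    have hgζ : g ζ = ζ := (IntermediateField.mem_fixingSubgroup_iff L g).mp hg ζ hζL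
    refine ⟨g B / B, ?_, ?_⟩
    · have h2 : g B / B ∈ IntermediateField.fixedField F.fixingSubgroup := by
        rintro ⟨s, hs⟩
        change s (g B / B) = g B / B
        have ht : g⁻¹ * s * g ∈ GU F := by
          have := hFn.conj_mem s hs g⁻¹
          simpa using this
        have hk : kumQ p ζ B (g⁻¹ * s * g) = kumQ p ζ B s := by
          rw [hχ' _ ht, hχ' s hs]
          have := hconj g⁻¹ ((GU L).inv_mem hg) s hs
          rw [inv_inv] at this
          rw [this]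
        have e1 : s (g B) = g ((g⁻¹ * s * g) B) := by
          have : s * g = g * (g⁻¹ * s * g) := by group
          calc s (g B) = (s * g) B := rfl
            _ = (g * (g⁻¹ * s * g)) B := by rw [this]
            _ = g ((g⁻¹ * s * g) B) := rfl
        rw [map_div₀, e1, hspec _ ht, hk, hspec s hs, map_mul, map_pow, hgζ]
        have hz : ζ ^ (kumQ p ζ B s).val ≠ 0 := pow_ne_zero _ hζ0
        field_simp
      haveI : IsGalois ℚ Qb := Fermat.Agent.PT.Bridge.h23b_isGalois_Qb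
      rwa [InfiniteGalois.fixedField_fixingSubgroup] at h2
    · rw [map_pow, div_pow]
      field_simp

/-! ## A2: trivial quotient of Kummer elements ⇒ coboundary of level `S` -/

/-- `DvdValAt` is monotone in the field. -/
theorem h11s_dvdValAt_mono {n : ℕ} {L L' : NFd} (h : L ≤ L') {A : ValuationSubring Qb} {a : Qb}
    (ha : DvdValAt n L A a) : DvdValAt n L' A a := by
  obtain ⟨π, hπ, hπ0, u, hu, hu', e⟩ := ha
  exact ⟨π, h hπ, hπ0, u, hu, hu', e⟩

/-- **A2.** If the quotient of the Kummer elements of two classes is trivial (`h67s_Triv`), the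
difference of the classes is a coboundary of level `S`. -/
theorem h11s_A2 [Fact p.Prime] (hpS : ExtCitation.pPrime p ∈ S) (ζ : Qb) (hζL : ζ ∈ L)
    (hζ : IsPrimitiveRoot ζ p)
    {y₁ y₂ : GQ × GQ → ZMod p} {f₁ f₂ : GQ → ZMod p} {F₁ F₂ : NFd} {B₁ B₂ : Qb}
    (hy₁ : ∀ g ∈ GU L, ∀ h ∈ GU L, y₁ (g, h) = gacob f₁ (g, h))
    (hy₂ : ∀ g ∈ GU L, ∀ h ∈ GU L, y₂ (g, h) = gacob f₂ (g, h))
    (hF₁ : F₁.IsUnramifiedOutside S) (hF₂ : F₂.IsUnramifiedOutside S)
    (hLF₁ : L ≤ F₁) (hLF₂ : L ≤ F₂) (hB₁ : B₁ ≠ 0) (hB₂ : B₂ ≠ 0)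
    (hB₁p : B₁ ^ p ∈ F₁) (hB₂p : B₂ ^ p ∈ F₂)
    (hf₁ : ∀ g ∈ GU L, ∀ s ∈ GU F₁, f₁ (g * s) = f₁ g + kumQ p ζ B₁ s)
    (hf₂ : ∀ g ∈ GU L, ∀ s ∈ GU F₂, f₂ (g * s) = f₂ g + kumQ p ζ B₂ s)
    (hT : h67s_Triv p S L (B₁ ^ p / B₂ ^ p)) :
    GACohomS S L (y₁ - y₂) 0 := by
  have hp : p.Prime := Fact.out
  have hpos : 0 < p := hp.pos
  haveI : NeZero p := ⟨hpos.ne'⟩
  obtain ⟨b, hbL, hb0, hdvd⟩ := hT
  obtain ⟨β, hβ⟩ := IsAlgClosed.exists_pow_nat_eq b hpos
  have hβ0 : β ≠ 0 := by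
    rintro rfl
    rw [zero_pow hpos.ne'] at hβ
    exact hb0 hβ.symm
  set C : Qb := B₁ / B₂ / β with hC
  have hC0 : C ≠ 0 := div_ne_zero (div_ne_zero hB₁ hB₂) hβ0
  have hCp : C ^ p = B₁ ^ p / B₂ ^ p / b := by
    rw [hC, div_pow, div_pow, hβ]
  have hE : (F₁ ⊔ F₂).IsUnramifiedOutside S := hF₁.sup hF₂
  have hLE : L ≤ F₁ ⊔ F₂ := hLF₁.trans le_sup_left
  have hCpE : C ^ p ∈ F₁ ⊔ F₂ := by
    rw [hCp]
    exact div_mem (div_mem ((le_sup_left : F₁ ≤ F₁ ⊔ F₂) hB₁p)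
      ((le_sup_right : F₂ ≤ F₁ ⊔ F₂) hB₂p)) (hLE hbL)
  obtain ⟨F, hF, -, hEF, hCF⟩ := h96k_kKumRam p S (F₁ ⊔ F₂) C hpos
    (fun q hq => by
      have h1 : (q : ℕ) = p := (Nat.prime_dvd_prime_iff_eq q.2 hp).mp hq
      have h2 : q = ExtCitation.pPrime p := Subtype.ext h1
      rw [h2]
      exact hpS)
    hE hC0 hCpE
    (fun q hq A hA => by
      rw [hCp]
      exact h11s_dvdValAt_mono hLE (hdvd q hq A hA))
  have hF₁F : F₁ ≤ F := le_sup_left.trans hEF
  have hF₂F : F₂ ≤ F := le_sup_right.trans hEF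
  have hLF : L ≤ F := hLF₁.trans hF₁F
  obtain ⟨hs1, -, -, -⟩ := h96k_kKumBasic p F₁ ζ B₁ (hLF₁ hζL) hζ hB₁ hB₁p
  obtain ⟨hs2, -, -, -⟩ := h96k_kKumBasic p F₂ ζ B₂ (hLF₂ hζL) hζ hB₂ hB₂p
  obtain ⟨hsβ, haddβ, -, -⟩ := h96k_kKumBasic p L ζ β hζL hζ hβ0 (by rw [hβ]; exact hbL)
  -- the Kummer relation on `G_F`
  have hrel : ∀ s ∈ GU F, kumQ p ζ B₁ s = kumQ p ζ B₂ s + kumQ p ζ β s := by
    intro s hs
    have hsF₁ : s ∈ GU F₁ := IntermediateField.fixingSubgroup_antitone hF₁F hs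
    have hsF₂ : s ∈ GU F₂ := IntermediateField.fixingSubgroup_antitone hF₂F hs
    have hsL : s ∈ GU L := IntermediateField.fixingSubgroup_antitone hLF hs
    have hsC : s C = C := (IntermediateField.mem_fixingSubgroup_iff F s).mp hs C hCF
    have hB₁eq : B₁ = C * B₂ * β := by
      rw [hC]
      field_simp
    have e : s B₁ = ζ ^ ((kumQ p ζ B₂ s).val + (kumQ p ζ β s).val) * B₁ := by
      conv_lhs => rw [hB₁eq]
      rw [map_mul, map_mul, hsC, hs2 s hsF₂, hsβ s hsL, pow_add]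
      conv_rhs => rw [hB₁eq]
      ring
    rw [h96k_kumQ_eq_natCast hζ hB₁ e]
    push_cast
    rw [ZMod.natCast_val, ZMod.natCast_val, ZMod.cast_id, ZMod.cast_id]
  refine ⟨fun g => f₁ g - f₂ g - kumQ p ζ β g, ⟨F, hF, hLF, fun g hg s hs => ?_⟩,
    fun g hg h hh => ?_⟩
  · have hsF₁ : s ∈ GU F₁ := IntermediateField.fixingSubgroup_antitone hF₁F hs
    have hsF₂ : s ∈ GU F₂ := IntermediateField.fixingSubgroup_antitone hF₂F hs
    have hsL : s ∈ GU L := IntermediateField.fixingSubgroup_antitone hLF hs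
    simp only
    rw [hf₁ g hg s hsF₁, hf₂ g hg s hsF₂, haddβ g hg s hsL, hrel s hs]
    ring
  · have e1 := hy₁ g hg h hh
    have e2 := hy₂ g hg h hh
    have e3 := haddβ g hg h hh
    simp only [Pi.sub_apply, Pi.zero_apply, gacob, zero_add] at e1 e2 ⊢
    rw [e1, e2, e3]
    ring

end Fermat.Agent.PT.Glob
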