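import Mathlib
import Fermat.Agent.PT.Glob.Sha.H11ShaCoh

/-!
# W3-PT / PT-GLOB / GLOB-SHA (helper11): assembly of `GShaBound`

`h11s_gShaBound : GHasse → h67s_ClassBound → GShaBound`.

Part A (`Glob/Sha/H11ShaCoh.lean`) attaches to every linear combination `y_x = ∑ x i • y i` of
the given classes a Kummer element `a x = (B x) ^ p`, invariant in the sense of `h67s_Inv`; if
`a x / a x'` is trivial (`h67s_Triv`) then `y_x - y_x'` is a coboundary of level `S`, hence
`x = x'` by the independence hypothesis. Part B (`h67s_ClassBound`) bounds the number of such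
elements by `#(Cl_S(L)/p)`.
-/

set_option autoImplicit false
set_option linter.style.haveILetI false

open NumberField IsDedekindDomain
open scoped Classical Pointwise

noncomputable section

namespace Fermat.Agent.PT.Glob

open Fermat.Agent.Bridge

/-- **GLOB-SHA**, modulo the Hasse principle and the class bound of Part B. -/
theorem h11s_gShaBound (hH : GHasse) (hB : h67s_ClassBound) : GShaBound := by
  intro p _ hp2 S hpS L _ ζ hL hζL hζ n y hy hind
  have hpos : 0 < p := (Fact.out : p.Prime).pos
  haveI : NeZero p := ⟨hpos.ne'⟩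
  have hZ : ∀ x : Fin n → ZMod p, h11s_Z p S L (∑ i, x i • y i) :=
    fun x => h11s_Z_sum hL y hy x
  choose f F B hyf hF hLF hB0 hBp hfs hinv using
    fun x : Fin n → ZMod p => h11s_A1 hH hp2 ζ hζL hζ (hZ x)
  have hcard := hB p S L hL (Fin n → ZMod p) (fun x => B x ^ p)
    (fun x => ⟨pow_ne_zero _ (hB0 x), F x, hF x, hLF x, hBp x, hinv x⟩)
    (fun x x' hT => by
      have h1 := h11s_A2 hpS ζ hζL hζ (hyf x) (hyf x') (hF x) (hF x') (hLF x) (hLF x')
        (hB0 x) (hB0 x') (hBp x) (hBp x') (hfs x) (hfs x') hT
      have h2 : (∑ i, x i • y i) - (∑ i, x' i • y i) = ∑ i, (x - x') i • y i := by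
        rw [← Finset.sum_sub_distrib]
        refine Finset.sum_congr rfl fun i _ => ?_
        rw [Pi.sub_apply, sub_smul]
      rw [h2] at h1
      have h3 := hind (x - x') h1
      exact sub_eq_zero.mp h3)
  have hc : Fintype.card (Fin n → ZMod p) = p ^ n := by
    rw [Fintype.card_eq_nat_card, Nat.card_fun, Nat.card_zmod, Nat.card_fin]
  rw [← hc]
  convert hcard

end Fermat.Agent.PT.Glob
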