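import Fermat.Agent.PT.Glob.Sha.H11Sha
import Fermat.Agent.PT.Glob.Sha.Class67
import Fermat.Agent.PT.Glob.H82HasseMain

/-!
# W3-PT / PT-GLOB / GLOB-SHA: `GShaBound`, unconditional

Wiring of the two halves of GLOB-SHA (`h11s_gShaBound`, Part A + assembly by helper11;
`h67s_classBound`, Part B by helper67) with the Hasse norm theorem in the frame
(`h82m_gHasse`, helper39/helper82).
-/

namespace Fermat.Agent.PT.Glob

/-- **`GShaBound`** (`dim Ш²_S(L, 𝔽_p) ≤ dim Cl_S(L)/p`), unconditional. -/
theorem h67s_gShaBound : GShaBound :=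
  h11s_gShaBound h82m_gHasse h67s_classBound

end Fermat.Agent.PT.Glob
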