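import Mathlib
import Fermat.Agent.PT.Glob.Sha.H11Sha
import Fermat.Agent.PT.Glob.Sha.Class67
import Fermat.Agent.PT.Glob.H39HasseWire

/-!
# W3-PT / PT-GLOB / GLOB-SHA (helper11 + helper67): `GShaBound` from the Hasse principle

* `h11s_gShaBound_of_hasse : GHasse → GShaBound` (Part A `h11s_gShaBound` + Part B
  `h67s_classBound`);
* `h11s_gShaBound_of_hasseNorm : GHasseNorm → GShaBound` (through `h39gw_gHasse_of`).
-/

set_option autoImplicit false

namespace Fermat.Agent.PT.Glob

/-- **GLOB-SHA** from the Hasse principle for `H²(G_L, 𝔽_p)`. -/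
theorem h11s_gShaBound_of_hasse (hH : GHasse) : GShaBound :=
  h11s_gShaBound hH h67s_classBound

/-- **GLOB-SHA** from the Hasse norm theorem. -/
theorem h11s_gShaBound_of_hasseNorm (hHN : GHasseNorm) : GShaBound :=
  h11s_gShaBound_of_hasse (h39gw_gHasse_of hHN)

end Fermat.Agent.PT.Glob
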